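/-
Cluster T / S35, WP D (helper43), part 1: the pushforward of divisor classes along a finite
morphism of curves (`φ : F →ₐ[K] F'` finite, with the norm formula), and its effect on the
classes `[(1/n) div x]`:  `φ_* [(1/n) div x] = [(1/n) div (Norm_φ x)]`.
Pure algebra on the Prelude's `Divisor` / `Pic0`.
-/
import Mathlib
import Fermat.Agent.MUL.Orig.F3.I2.RootClass
import Fermat.Agent.MUL.Orig.F3.Galois.HeckeComm

set_option autoImplicit false
set_option linter.style.haveILetI false

noncomputable section

namespace Fermat.Agent.F3Deg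

open AlgebraicCurve Fermat.Agent.F3I2 Fermat.Agent.F3G

variable {K F F' : Type*} [Field K] [Field F] [Field F'] [Algebra K F] [Algebra K F']
variable (φ : F →ₐ[K] F') (hφ : φ.toRingHom.IsIntegral)

/-- The pushforward of degree-zero divisors along `φ`. -/
def pushDegZero :
    Divisor.degZero (K := K) (F := F') →+ Divisor.degZero (K := K) (F := F) :=
  ((Divisor.pushforwardAlong φ hφ).domRestrict
    (Divisor.degZero (K := K) (F := F'))).codRestrict _
    (fun D => Divisor.pushforwardAlong_mem_degZero φ hφ D.2)

@[simp]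
theorem coe_pushDegZero (D : Divisor.degZero (K := K) (F := F')) :
    (pushDegZero φ hφ D : Divisor K F) = Divisor.pushforwardAlong φ hφ (D : Divisor K F') :=
  rfl

variable (hfin : FiniteAlong K φ) (hN : NormFormulaAlong K φ hfin)

/-- The pushforward of divisor classes along `φ` (`φ_*`, the norm on functions). -/
def pushPic : Pic0 K F' →+ Pic0 K F :=
  QuotientAddGroup.map _ _ (pushDegZero φ hφ) (by
    rintro ⟨D, hD0⟩ hD
    simp only [AddSubgroup.mem_addSubgroupOf] at hD ⊢
    exact Divisor.isPrincipal_pushforwardAlong φ hφ hfin hN hD)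

theorem pushPic_mk (D : Divisor.degZero (K := K) (F := F')) :
    pushPic φ hφ hfin hN (Pic0.mk D) = Pic0.mk (pushDegZero φ hφ D) :=
  rfl

include hN in
/-- The norm formula, along `φ`. -/
theorem pushforwardAlong_apply_eq_ord_norm {f : F'} (hf : f ≠ 0) {D : Divisor K F'}
    (hD : ∀ w : Place K F', D w = w.ord f) (v : Place K F) :
    Divisor.pushforwardAlong φ hφ D v = v.ord (normAlong φ f) := by
  letI := algebraAlong φ
  haveI := isScalarTower_along φ
  haveI := isIntegral_along φ hφ
  haveI : Module.Finite F F' := hfin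
  exact hN f hf D hD v

include hN in
/-- `φ_* ((1/n) div x) = (1/n) div (Norm_φ x)`. -/
theorem IsRootDiv.push {n : ℕ} {x : F'} {D : Divisor.degZero (K := K) (F := F')}
    (hD : IsRootDiv n x D) : IsRootDiv n (normAlong φ x) (pushDegZero φ hφ D) := by
  refine ⟨normAlong_ne_zero φ hfin hD.1, fun v => ?_⟩
  have h := pushforwardAlong_apply_eq_ord_norm φ hφ hfin hN hD.1
    (D := (n : ℤ) • (D : Divisor K F'))
    (fun w => by rw [Finsupp.smul_apply, smul_eq_mul, hD.2]) v
  rwa [map_zsmul, Finsupp.smul_apply, smul_eq_mul] at h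

end Fermat.Agent.F3Deg
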